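import Mathlib
import Fermat.Agent.Lib.FFSep.Norm
import Fermat.Agent.Lib.FFSep.Divisor

/-!
# S37 [NORM], generic part (helper60): sums of orders over unions of fibres of the `x`-line

`F / K` a function field, `K` algebraically closed, `x ∈ F` transcendental with `F / K(x)` finite
separable.  For a set `T ⊆ ℙ¹(K) = Option K` put `fibU K x T = ⋃_{t ∈ T} fibre K x t` (the places
of `F` over `T`).  Then

* `sum_ord_norm_fibU` : `Σ_{v ∈ fibU T} ord_v (N_{F/K(x)} f) = [F : K(x)] · Σ_{v ∈ fibU T} ord_v f`;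
* `sum_ord_sub_fibU`  : `Σ_{v ∈ fibU T} ord_v (x - a) = [a ∈ T]·n - [∞ ∈ T]·n`, `n = [F : K(x)]`;
* `sum_ord_mul_fibU`, `sum_ord_inv_fibU`, `sum_ord_algebraMap_fibU`.
-/

set_option autoImplicit false

noncomputable section

namespace Fermat.Agent.S37.FibreSum

open AlgebraicCurve IntermediateField Fermat.Agent.Lib Fermat.Agent.Lib.FFSep

section Sets

/-- Fibrewise comparison along a subfamily of a cover by pairwise disjoint finite sets. -/
theorem finsum_mem_biUnion_eq_mul {α ι : Type*} (fib : ι → Set α)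
    (hdisj : Pairwise (Function.onFun Disjoint fib)) (hfin : ∀ t, (fib t).Finite)
    (hcover : ∀ v, ∃ t, v ∈ fib t) (T : Set ι) {h₁ h₂ : α → ℤ}
    (hf₁ : (Function.support h₁).Finite) (hf₂ : (Function.support h₂).Finite) (n : ℤ)
    (hfib : ∀ t ∈ T, ∑ᶠ v ∈ fib t, h₁ v = n * ∑ᶠ v ∈ fib t, h₂ v) :
    ∑ᶠ v ∈ ⋃ t ∈ T, fib t, h₁ v = n * ∑ᶠ v ∈ ⋃ t ∈ T, fib t, h₂ v := by
  classical
  rw [finsum_mem_def, finsum_mem_def]
  refine finsum_eq_mul_finsum_of_cover fib hdisj hfin hcover
    (hf₁.subset (by rw [Set.support_indicator]; exact Set.inter_subset_right))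
    (hf₂.subset (by rw [Set.support_indicator]; exact Set.inter_subset_right)) n
    (fun t => ?_)
  by_cases ht : t ∈ T
  · have hsub : fib t ⊆ ⋃ t ∈ T, fib t := Set.subset_biUnion_of_mem ht
    rw [finsum_mem_congr rfl (fun v hv => Set.indicator_of_mem (hsub hv) h₁),
      finsum_mem_congr rfl (fun v hv => Set.indicator_of_mem (hsub hv) h₂)]
    exact hfib t ht
  · have hdis : ∀ v ∈ fib t, v ∉ ⋃ t ∈ T, fib t := by
      intro v hv hv'
      obtain ⟨t', ht', hvt'⟩ := Set.mem_iUnion₂.mp hv'
      have hne : t ≠ t' := fun h => ht (h ▸ ht')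
      exact Set.disjoint_left.mp (hdisj hne) hv hvt'
    rw [finsum_mem_congr rfl (fun v hv => Set.indicator_of_notMem (hdis v hv) h₁),
      finsum_mem_congr rfl (fun v hv => Set.indicator_of_notMem (hdis v hv) h₂)]
    simp

/-- A finitely supported function summed over a union of fibres of a disjoint finite cover. -/
theorem finsum_mem_biUnion_eq_finsum {α ι : Type*} (fib : ι → Set α)
    (hdisj : Pairwise (Function.onFun Disjoint fib)) (hfin : ∀ t, (fib t).Finite)
    (hcover : ∀ v, ∃ t, v ∈ fib t) (T : Set ι) {h : α → ℤ}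
    (hf : (Function.support h).Finite) :
    ∑ᶠ v ∈ ⋃ t ∈ T, fib t, h v = ∑ᶠ t ∈ T, ∑ᶠ v ∈ fib t, h v := by
  classical
  choose τ hτ using hcover
  have huniq : ∀ v t, v ∈ fib t → t = τ v := by
    intro v t hv
    by_contra hne
    exact Set.disjoint_left.mp (hdisj hne) hv (hτ v)
  set T₀ : Set ι := T ∩ τ '' Function.support h with hT₀
  have hT₀fin : T₀.Finite := (hf.image τ).subset Set.inter_subset_right
  have h1 : ∑ᶠ v ∈ ⋃ t ∈ T, fib t, h v = ∑ᶠ v ∈ ⋃ t ∈ T₀, fib t, h v := by
    apply finsum_mem_inter_support_eq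
    ext v
    simp only [Set.mem_inter_iff, Set.mem_iUnion, Function.mem_support, exists_prop]
    constructor
    · rintro ⟨⟨t, ht, hv⟩, hv0⟩
      refine ⟨⟨t, ⟨ht, ?_⟩, hv⟩, hv0⟩
      rw [huniq v t hv]
      exact Set.mem_image_of_mem τ hv0
    · rintro ⟨⟨t, ht, hv⟩, hv0⟩
      exact ⟨⟨t, ht.1, hv⟩, hv0⟩
  have h2 : ∑ᶠ t ∈ T, ∑ᶠ v ∈ fib t, h v = ∑ᶠ t ∈ T₀, ∑ᶠ v ∈ fib t, h v := by
    apply finsum_mem_inter_support_eq
    ext t
    simp only [Set.mem_inter_iff, Function.mem_support]
    constructor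
    · rintro ⟨ht, hne⟩
      refine ⟨⟨ht, ?_⟩, hne⟩
      obtain ⟨v, hv, hv0⟩ := exists_ne_zero_of_finsum_mem_ne_zero hne
      rw [huniq v t hv]
      exact Set.mem_image_of_mem τ hv0
    · rintro ⟨ht, hne⟩
      exact ⟨ht.1, hne⟩
  rw [h1, h2]
  exact finsum_mem_biUnion (fun i _ j _ hij => hdisj hij) hT₀fin (fun t _ => hfin t)

/-- Sums over a set commute with negation (no finiteness needed). -/
theorem finsum_mem_neg {α : Type*} (s : Set α) (f : α → ℤ) :
    ∑ᶠ v ∈ s, -f v = -∑ᶠ v ∈ s, f v := by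
  classical
  rw [finsum_mem_def, finsum_mem_def, ← finsum_neg_distrib]
  refine finsum_congr fun v => ?_
  rw [Set.indicator_apply, Set.indicator_apply]
  split_ifs <;> simp

/-- A function supported at one index. -/
theorem finsum_mem_ite_eq_ite {ι : Type*} (T : Set ι) (t₀ : ι) (c : ℤ) [Decidable (t₀ ∈ T)]
    [DecidableEq ι] :
    ∑ᶠ t ∈ T, (if t = t₀ then c else 0) = if t₀ ∈ T then c else 0 := by
  by_cases h : t₀ ∈ T
  · rw [if_pos h]
    have : ∑ᶠ t ∈ T, (if t = t₀ then c else 0) = ∑ᶠ t ∈ ({t₀} : Set ι), (if t = t₀ then c else 0) := by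
      apply finsum_mem_inter_support_eq
      ext t
      simp only [Set.mem_inter_iff, Function.mem_support, Set.mem_singleton_iff]
      constructor
      · rintro ⟨_, hne⟩
        have : t = t₀ := by
          by_contra hne'
          exact hne (if_neg hne')
        exact ⟨this, hne⟩
      · rintro ⟨rfl, hne⟩
        exact ⟨h, hne⟩
    rw [this, finsum_mem_singleton, if_pos rfl]
  · rw [if_neg h]
    have : ∀ t ∈ T, (if t = t₀ then c else 0) = 0 := by
      intro t ht
      rw [if_neg]
      rintro rfl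
      exact h ht
    rw [finsum_mem_congr rfl this]
    simp

end Sets

section Fibres

variable {K F : Type*} [Field K] [Field F] [Algebra K F] {x : F}

/-- The places of `F` over a set `T` of points of the `x`-line. -/
def fibU (K : Type*) {F : Type*} [Field K] [Field F] [Algebra K F] (x : F)
    (T : Set (Option K)) : Set (Place K F) :=
  ⋃ t ∈ T, fibre K x t

theorem mem_fibU {T : Set (Option K)} {v : Place K F} :
    v ∈ fibU K x T ↔ ∃ t ∈ T, v ∈ fibre K x t := by
  simp [fibU]

variable [FiniteDimensional K⟮x⟯ F] [Algebra.IsSeparable K⟮x⟯ F] [IsAlgClosed K]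

/-- **Norm formula over a union of fibres.** -/
theorem sum_ord_norm_fibU (hxt : Transcendental K x) (T : Set (Option K)) {f : F} (hf : f ≠ 0) :
    ∑ᶠ v ∈ fibU K x T, v.ord (algebraMap K⟮x⟯ F (Algebra.norm K⟮x⟯ f)) =
      (Module.finrank K⟮x⟯ F : ℤ) * ∑ᶠ v ∈ fibU K x T, v.ord f := by
  refine finsum_mem_biUnion_eq_mul (fibre K x) fibre_disjoint (fibre_finite hxt)
    (fibre_cover hxt) T (finite_support_ord hxt _) (finite_support_ord hxt f) _ (fun t _ => ?_)
  cases t with
  | none => exact sum_ord_norm_poles hxt hf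
  | some a => exact sum_ord_norm hxt a hf

omit [IsAlgClosed K] in
theorem sum_ord_mul_fibU (hxt : Transcendental K x) (T : Set (Option K)) {f g : F}
    (hf : f ≠ 0) (hg : g ≠ 0) :
    ∑ᶠ v ∈ fibU K x T, v.ord (f * g) =
      ∑ᶠ v ∈ fibU K x T, v.ord f + ∑ᶠ v ∈ fibU K x T, v.ord g := by
  rw [← finsum_mem_add_distrib' ((finite_support_ord hxt f).subset Set.inter_subset_right)
    ((finite_support_ord hxt g).subset Set.inter_subset_right)]
  exact finsum_mem_congr rfl (fun v _ => v.ord_mul hf hg)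

omit [FiniteDimensional K⟮x⟯ F] [Algebra.IsSeparable K⟮x⟯ F] [IsAlgClosed K] in
theorem sum_ord_inv_fibU (T : Set (Option K)) (f : F) :
    ∑ᶠ v ∈ fibU K x T, v.ord f⁻¹ = -∑ᶠ v ∈ fibU K x T, v.ord f := by
  rw [← finsum_mem_neg]
  exact finsum_mem_congr rfl (fun v _ => v.ord_inv f)

omit [FiniteDimensional K⟮x⟯ F] [Algebra.IsSeparable K⟮x⟯ F] [IsAlgClosed K] in
theorem sum_ord_algebraMap_fibU (T : Set (Option K)) (c : K) :
    ∑ᶠ v ∈ fibU K x T, v.ord (algebraMap K F c) = 0 := by
  rw [finsum_mem_congr rfl (fun v _ => FFPlaces.ord_algebraMap v c)]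
  simp

omit [FiniteDimensional K⟮x⟯ F] [Algebra.IsSeparable K⟮x⟯ F] [IsAlgClosed K] in
/-- `x - a` is a unit at the zeros of `x - b`, `b ≠ a`. -/
theorem ord_sub_eq_zero_of_ne (v : Place K F) {a b : K} (hab : b ≠ a)
    (hv : 0 < v.ord (x - algebraMap K F b)) : v.ord (x - algebraMap K F a) = 0 := by
  by_contra hne
  have hxa : x - algebraMap K F a ≠ 0 := by
    rintro h0
    rw [h0, v.ord_zero] at hne
    exact hne rfl
  rcases lt_or_gt_of_ne hne with hlt | hgt
  · -- a pole of `x - a` is a pole of `x - b`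
    have h1 := ord_sub_algebraMap_of_neg v hlt (b - a)
    have e : x - algebraMap K F a - algebraMap K F (b - a) = x - algebraMap K F b := by
      rw [map_sub]; ring
    rw [e] at h1
    omega
  · exact hab (residue_unique v (Or.inr hv) (Or.inr hgt))

/-- The fibre sums of `ord (x - a)`. -/
theorem sum_ord_sub_fibre (hxt : Transcendental K x) (a : K) (t : Option K) [DecidableEq K] :
    ∑ᶠ v ∈ fibre K x t, v.ord (x - algebraMap K F a) =
      (if t = some a then (Module.finrank K⟮x⟯ F : ℤ) else 0) +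
        (if t = none then -(Module.finrank K⟮x⟯ F : ℤ) else 0) := by
  cases t with
  | none =>
    rw [if_neg (by simp), if_pos rfl, zero_add]
    have : ∑ᶠ v ∈ fibre K x none, v.ord (x - algebraMap K F a) =
        ∑ᶠ v ∈ {v : Place K F | v.ord x < 0}, v.ord x :=
      finsum_mem_congr rfl (fun v hv => ord_sub_algebraMap_of_neg v hv a)
    rw [this, sum_ord_poles hxt]
  | some b =>
    have h0 : ¬ (some b : Option K) = none := by simp
    rw [if_neg h0, add_zero]
    by_cases hab : b = a
    · subst hab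
      rw [if_pos rfl]
      exact sum_ord_zeros hxt b
    · rw [if_neg (by simpa using hab)]
      have h1 : ∀ v ∈ fibre K x (some b), v.ord (x - algebraMap K F a) = 0 :=
        fun v hv => ord_sub_eq_zero_of_ne v hab hv
      rw [finsum_mem_congr rfl h1]
      simp

/-- **The divisor of `x - a` over a union of fibres.** -/
theorem sum_ord_sub_fibU (hxt : Transcendental K x) (T : Set (Option K)) (a : K)
    [Decidable (some a ∈ T)] [Decidable (none ∈ T)] :
    ∑ᶠ v ∈ fibU K x T, v.ord (x - algebraMap K F a) =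
      (if some a ∈ T then (Module.finrank K⟮x⟯ F : ℤ) else 0) +
        (if none ∈ T then -(Module.finrank K⟮x⟯ F : ℤ) else 0) := by
  classical
  rw [fibU, finsum_mem_biUnion_eq_finsum (fibre K x) fibre_disjoint (fibre_finite hxt)
    (fibre_cover hxt) T (finite_support_ord hxt _),
    finsum_mem_congr rfl (fun t _ => sum_ord_sub_fibre hxt a t),
    finsum_mem_add_distrib' ((Set.finite_singleton (some a)).subset (by
      intro t ht
      simp only [Set.mem_inter_iff, Function.mem_support, ne_eq, ite_eq_right_iff,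
        Classical.not_imp] at ht
      exact ht.2.1))
      ((Set.finite_singleton none).subset (by
      intro t ht
      simp only [Set.mem_inter_iff, Function.mem_support, ne_eq, ite_eq_right_iff,
        Classical.not_imp] at ht
      exact ht.2.1)),
    finsum_mem_ite_eq_ite, finsum_mem_ite_eq_ite]

end Fibres

end Fermat.Agent.S37.FibreSum

end
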