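import Mathlib
import Fermat.Agent.S18.CharStmt
import Fermat.Agent.S18.PlacesModLMain
import Fermat.Agent.S37.Plan2b

/-!
# S37 [NORM], the norm to `Q̄(j)` commutes with reduction (helper60)

`OrthoBasis.Setup` for `Q̄(j) ⊂ F_N` (types `Kbar⟮jBar N⟯ ⊂ FN N`, residue side
`k⟮j̄⟯ ⊂ F_{N,k}`), and its consequence: for `y ∈ F_N ∩ Ocal`, the norm `N_{F_N/Q̄(j)} y` lies in
`Ocal` and reduces to `N_{F_{N,k}/k(j̄)} ȳ`.
-/

set_option autoImplicit false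

noncomputable section

namespace Fermat.Agent.S37.FibreSum

open ModularCurve AlgebraicCurve IntermediateField Polynomial
open Fermat.Agent.S24 Fermat.Agent.S18 Fermat.Agent.S18.Content Fermat.Agent.S18.Plan
  Fermat.Agent.S37.Plan2

set_option synthInstance.maxHeartbeats 400000
set_option maxHeartbeats 1600000

variable (A : ValuationSubring Kbar) (N : ℕ) [NeZero N]

/-! ### Level one -/

omit [NeZero N] in
/-- `Q̄(j) ⊆ F_1`. -/
theorem coe_mem_level_one [NeZero N] (z : Kbar⟮jBar N⟯) :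
    (((z : FN N) : Om)) ∈ modularFunctionFieldBar 1 := by
  have h1 : (Kbar⟮jBar N⟯).map (modularFunctionFieldBar N).val ≤ modularFunctionFieldBar 1 := by
    rw [IntermediateField.adjoin_map, IntermediateField.adjoin_le_iff]
    rintro _ ⟨w, hw, rfl⟩
    rw [Set.mem_singleton_iff] at hw
    subst hw
    exact coeffEmb_mem_laurentBaseChange Kbar (jq_mem_full 1)
  exact h1 ⟨(z : FN N), z.2, rfl⟩

omit [NeZero N] in
/-- `F_{1,k} ⊆ k(j̄)`. -/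
theorem mem_adjoin_jkEl_of_mem_level_one {w : Omk A} (h1 : w ∈ Fk A 1) (hw : w ∈ Fk A N) :
    (⟨w, hw⟩ : Fk A N) ∈ (kk A)⟮jkEl A N⟯ := by
  have hle : Fk A 1 ≤ ((kk A)⟮jkEl A N⟯).map (Fk A N).val := by
    rw [IntermediateField.adjoin_map]
    show modularFunctionFieldFullC (kk A) 1 ≤ _
    rw [modularFunctionFieldFullC, IntermediateField.adjoin_le_iff]
    rintro _ ⟨d, hd, hdvd, rfl⟩
    have hd1 : d = 1 := Nat.dvd_one.mp hdvd
    subst hd1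
    rw [qExpand_one_apply]
    exact IntermediateField.subset_adjoin _ _ ⟨jkEl A N, rfl, rfl⟩
  obtain ⟨z, hz, hzw⟩ := hle h1
  have : z = ⟨w, hw⟩ := Subtype.ext hzw
  exact this ▸ hz

/-! ### The valuation rings and the reduction maps -/

/-- `F_N ∩ Ocal`. -/
def OF (hR : RedStmt A N) : ValuationSubring (FN N) :=
  CharStmt.valO (Ocal A) (modularFunctionFieldBar N) (CharStmt.valProp_of_redStmt A hR)

omit [NeZero N] in
theorem mem_OF (hR : RedStmt A N) (y : FN N) : y ∈ OF A N hR ↔ (y : Om) ∈ Ocal A := Iff.rfl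

/-- reduction `F_N ∩ Ocal → F_{N,k}`. -/
def redF (hR : RedStmt A N) : OF A N hR →+* Fk A N :=
  CharStmt.redO (Ocal A) (red A) (modularFunctionFieldBar N) (Fk A N)
    (CharStmt.valProp_of_redStmt A hR) hR.2.1

omit [NeZero N] in
theorem coe_redF (hR : RedStmt A N) (y : OF A N hR) :
    ((redF A N hR y : Fk A N) : Omk A) = red A ⟨((y : FN N) : Om), y.2⟩ := rfl

/-- `Q̄(j) ∩ Ocal`. -/
def OJ (hR : RedStmt A N) : ValuationSubring Kbar⟮jBar N⟯ :=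
  (OF A N hR).comap (algebraMap Kbar⟮jBar N⟯ (FN N))

theorem mem_OJ (hR : RedStmt A N) (z : Kbar⟮jBar N⟯) :
    z ∈ OJ A N hR ↔ (((z : FN N) : Om)) ∈ Ocal A := Iff.rfl

/-- the inclusion `Q̄(j) ∩ Ocal → F_N ∩ Ocal`. -/
def inclJ (hR : RedStmt A N) : OJ A N hR →+* OF A N hR where
  toFun z := ⟨((z : Kbar⟮jBar N⟯) : FN N), z.2⟩
  map_one' := rfl
  map_mul' _ _ := rfl
  map_zero' := rfl
  map_add' _ _ := rfl

/-- reduction `Q̄(j) ∩ Ocal → k(j̄)`. -/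
def redJ (hR : RedStmt A N) (hR1 : RedStmt A 1) : OJ A N hR →+* (kk A)⟮jkEl A N⟯ :=
  ((redF A N hR).comp (inclJ A N hR)).codRestrict ((kk A)⟮jkEl A N⟯) (fun z => by
    have h1 : red A ⟨((((z : Kbar⟮jBar N⟯) : FN N)) : Om), z.2⟩ ∈ Fk A 1 :=
      hR1.2.1 ⟨_, z.2⟩ (coe_mem_level_one N (z : Kbar⟮jBar N⟯))
    exact mem_adjoin_jkEl_of_mem_level_one A N h1 (hR.2.1 ⟨_, z.2⟩ ((z : Kbar⟮jBar N⟯) : FN N).2))

theorem coe_redJ (hR : RedStmt A N) (hR1 : RedStmt A 1) (z : OJ A N hR) :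
    (((redJ A N hR hR1 z : (kk A)⟮jkEl A N⟯) : Fk A N) : Omk A) =
      red A ⟨((((z : Kbar⟮jBar N⟯) : FN N)) : Om), z.2⟩ := rfl

/-- The `OrthoBasis.Setup` of `Q̄(j) ⊂ F_N`. -/
theorem setupJ (hR : RedStmt A N) (hR1 : RedStmt A 1)
    (hpos : 0 < Module.finrank Kbar⟮jBar N⟯ (FN N))
    (heq : Module.finrank (kk A)⟮jkEl A N⟯ (Fk A N) = Module.finrank Kbar⟮jBar N⟯ (FN N)) :
    OrthoBasis.Setup (OJ A N hR) (OF A N hR) (redJ A N hR hR1) (redF A N hR) where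
  incl := fun z => z.2
  red_nonunit := by
    intro z hz
    by_contra hne
    apply hz
    have hne' : red A ⟨((((z : Kbar⟮jBar N⟯) : FN N)) : Om), z.2⟩ ≠ 0 := fun h0 =>
      hne (Subtype.ext (Subtype.ext h0))
    have hi := inv_mem_Ocal A ⟨_, z.2⟩ hne'
    have hz0 : (z : Kbar⟮jBar N⟯) ≠ 0 := by
      intro h0
      apply hne'
      have h00 : ((((z : Kbar⟮jBar N⟯) : FN N)) : Om) = 0 := by rw [h0]; rfl
      have : (⟨((((z : Kbar⟮jBar N⟯) : FN N)) : Om), z.2⟩ : Ocal A) = 0 := Subtype.ext h00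
      rw [this, map_zero]
    have hmem : (z : Kbar⟮jBar N⟯)⁻¹ ∈ OJ A N hR := by
      rw [mem_OJ]
      exact hi
    exact IsUnit.of_mul_eq_one (b := ⟨_, hmem⟩) (Subtype.ext (mul_inv_cancel₀ hz0))
  compat := fun _ => rfl
  surj' := by
    intro x
    obtain ⟨y, hy, hyx⟩ := hR.2.2.1 (x : Omk A) x.2
    exact ⟨⟨⟨(y : Om), hy⟩, y.2⟩, Subtype.ext hyx⟩
  finrank_pos := hpos
  finrank_eq := heq

/-! ### The norm commutes with reduction -/

/-- **The norm to `Q̄(j)` of an element of `F_N ∩ Ocal` lies in `Ocal` and reduces to the norm to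
`k(j̄)` of its reduction.** -/
theorem norm_red (hR : RedStmt A N) (hR1 : RedStmt A 1)
    [Module.Finite Kbar⟮jBar N⟯ (FN N)] [Module.Finite (kk A)⟮jkEl A N⟯ (Fk A N)]
    (heq : Module.finrank (kk A)⟮jkEl A N⟯ (Fk A N) = Module.finrank Kbar⟮jBar N⟯ (FN N))
    (y : FN N) (hy : (y : Om) ∈ Ocal A) (hk : red A ⟨(y : Om), hy⟩ ∈ Fk A N) :
    ∃ hg : ((algebraMap Kbar⟮jBar N⟯ (FN N) (Algebra.norm Kbar⟮jBar N⟯ y) : FN N) : Om) ∈ Ocal A,
      red A ⟨_, hg⟩ =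
        ((algebraMap (kk A)⟮jkEl A N⟯ (Fk A N)
          (Algebra.norm (kk A)⟮jkEl A N⟯ (⟨_, hk⟩ : Fk A N)) : Fk A N) : Omk A) := by
  have hpos : 0 < Module.finrank Kbar⟮jBar N⟯ (FN N) := Module.finrank_pos
  have S := setupJ A N hR hR1 hpos heq
  let g' : OF A N hR := ⟨y, hy⟩
  obtain ⟨P, -, -, h1, h2⟩ := S.exists_charpoly g'
  set n := Module.finrank Kbar⟮jBar N⟯ (FN N) with hn
  set a : OJ A N hR := P.coeff 0 with ha
  have hN : Algebra.norm Kbar⟮jBar N⟯ y = (-1) ^ n * (a : Kbar⟮jBar N⟯) := by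
    rw [Algebra.norm_apply, LinearMap.det_eq_sign_charpoly_coeff]
    have : (g' : FN N) = y := rfl
    rw [this] at h1
    rw [h1, coeff_map]
    rfl
  have hg'k : redF A N hR g' = (⟨red A ⟨(y : Om), hy⟩, hk⟩ : Fk A N) := Subtype.ext rfl
  have hNk : Algebra.norm (kk A)⟮jkEl A N⟯ (⟨red A ⟨(y : Om), hy⟩, hk⟩ : Fk A N) =
      (-1) ^ n * redJ A N hR hR1 a := by
    rw [Algebra.norm_apply, LinearMap.det_eq_sign_charpoly_coeff, ← hg'k, h2, coeff_map, heq]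
  -- transport to the ambient fields
  let φ : Kbar⟮jBar N⟯ →+* Om :=
    (algebraMap (FN N) Om).comp (algebraMap Kbar⟮jBar N⟯ (FN N))
  let ψ : (kk A)⟮jkEl A N⟯ →+* Omk A :=
    (algebraMap (Fk A N) (Omk A)).comp (algebraMap (kk A)⟮jkEl A N⟯ (Fk A N))
  have e1 : ((algebraMap Kbar⟮jBar N⟯ (FN N) (Algebra.norm Kbar⟮jBar N⟯ y) : FN N) : Om) =
      (-1) ^ n * φ (a : Kbar⟮jBar N⟯) := by
    show φ (Algebra.norm Kbar⟮jBar N⟯ y) = _
    rw [hN, map_mul, map_pow, map_neg, map_one]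
  have haO : φ (a : Kbar⟮jBar N⟯) ∈ Ocal A := a.2
  have hmem : (-1) ^ n * φ (a : Kbar⟮jBar N⟯) ∈ Ocal A :=
    Subring.mul_mem _ (Subring.pow_mem _ (Subring.neg_mem _ (Subring.one_mem _)) n) haO
  have hg : ((algebraMap Kbar⟮jBar N⟯ (FN N) (Algebra.norm Kbar⟮jBar N⟯ y) : FN N) : Om) ∈
      Ocal A := by
    rw [e1]; exact hmem
  refine ⟨hg, ?_⟩
  have e2 : red A ⟨_, hg⟩ = (-1) ^ n * red A ⟨φ (a : Kbar⟮jBar N⟯), haO⟩ := by
    rw [red_congr A e1 hg hmem]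
    have : (⟨(-1) ^ n * φ (a : Kbar⟮jBar N⟯), hmem⟩ : Ocal A) =
        (-1) ^ n * ⟨φ (a : Kbar⟮jBar N⟯), haO⟩ := Subtype.ext (by push_cast; rfl)
    rw [this, map_mul, map_pow, map_neg, map_one]
  have e3 : ((algebraMap (kk A)⟮jkEl A N⟯ (Fk A N)
      (Algebra.norm (kk A)⟮jkEl A N⟯ (⟨_, hk⟩ : Fk A N)) : Fk A N) : Omk A) =
      (-1) ^ n * ψ (redJ A N hR hR1 a) := by
    show ψ (Algebra.norm (kk A)⟮jkEl A N⟯ (⟨_, hk⟩ : Fk A N)) = _
    rw [hNk, map_mul, map_pow, map_neg, map_one]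
  rw [e2, e3]
  rfl

end Fermat.Agent.S37.FibreSum

end
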